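import Fermat.Agent.Jac.Model

/-!
# Boundedness of functions on the two charts

Functions on one chart whose pole order along the complement of the other chart is bounded form
finitely generated modules over any test algebra.
-/

set_option autoImplicit false

universe u

open scoped TensorProduct Polynomial

namespace Fermat.Agent.Jac

/-- An element whose image lies in the image of another map comes from the preimage of the
range, after any extension of scalars from a field. -/
theorem mem_baseChange_comap_range {k : Type u} [Field k] (A : Type u) [CommRing A] [Algebra k A]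
    {V V' W : Type u} [AddCommGroup V] [Module k V] [AddCommGroup V'] [Module k V']
    [AddCommGroup W] [Module k W] (f : V →ₗ[k] W) (g : V' →ₗ[k] W) (x : A ⊗[k] V)
    (y : A ⊗[k] V') (h : f.baseChange A x = g.baseChange A y) :
    x ∈ ((LinearMap.range g).comap f).baseChange A := by
  let q : V →ₗ[k] W ⧸ LinearMap.range g := (LinearMap.range g).mkQ ∘ₗ f
  have hq : LinearMap.ker q = (LinearMap.range g).comap f := by
    ext v
    simp [q]
  obtain ⟨τ, hτ⟩ : ∃ τ : (W ⧸ LinearMap.range g) →ₗ[k] V, q ∘ₗ τ ∘ₗ q = q := by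
    obtain ⟨σ, hσ⟩ := q.rangeRestrict.exists_rightInverse_of_surjective q.range_rangeRestrict
    obtain ⟨τ, hτ⟩ := σ.exists_extend
    refine ⟨τ, LinearMap.ext fun v => ?_⟩
    have h1 : τ (q v) = σ (q.rangeRestrict v) := LinearMap.congr_fun hτ (q.rangeRestrict v)
    have h2 : q.rangeRestrict (σ (q.rangeRestrict v)) = q.rangeRestrict v :=
      LinearMap.congr_fun hσ _
    simpa [h1] using congrArg Subtype.val h2
  let r : V →ₗ[k] V := LinearMap.id - τ ∘ₗ q
  have hr : ∀ v, r v ∈ (LinearMap.range g).comap f := by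
    intro v
    rw [← hq, LinearMap.mem_ker]
    have := LinearMap.congr_fun hτ v
    simp only [LinearMap.comp_apply] at this
    simp [r, this]
  have hrange : ∀ z : A ⊗[k] V, r.baseChange A z ∈ ((LinearMap.range g).comap f).baseChange A := by
    intro z
    induction z using TensorProduct.induction_on with
    | zero => simp
    | tmul a v => simpa using Submodule.tmul_mem_baseChange_of_mem a (hr v)
    | add _ _ h1 h2 => rw [map_add]; exact add_mem h1 h2
  have hqx : q.baseChange A x = 0 := by
    rw [LinearMap.baseChange_comp, LinearMap.comp_apply, h, ← LinearMap.comp_apply,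
      ← LinearMap.baseChange_comp, LinearMap.range_mkQ_comp, LinearMap.baseChange_zero,
      LinearMap.zero_apply]
  have hx : r.baseChange A x = x := by
    simp [r, LinearMap.baseChange_sub, LinearMap.baseChange_comp, hqx]
  exact hx ▸ hrange x

/-- Extension of scalars preserves finite generation. -/
theorem fg_baseChange {k : Type u} [Field k] (A : Type u) [CommRing A] [Algebra k A]
    {V : Type u} [AddCommGroup V] [Module k V] {P : Submodule k V} (h : P.FG) :
    (P.baseChange A).FG := by
  classical
  obtain ⟨s, rfl⟩ := h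
  exact ⟨s.image (TensorProduct.mk k A V 1), by
    rw [Finset.coe_image, Submodule.baseChange_span]⟩

/-- A module finite over `k[v]` is spanned by the `v ^ j * g` for finitely many `g`. -/
theorem exists_span_pow {k : Type u} [Field k] {V : Type u} [CommRing V] [Algebra k V] (v : V)
    (hfin : (Polynomial.aeval (R := k) v).toRingHom.Finite) : ∃ G : Finset V,
    Submodule.span k {y : V | ∃ g ∈ G, ∃ j : ℕ, y = v ^ j * g} = ⊤ := by
  let : Algebra k[X] V := (Polynomial.aeval (R := k) v).toRingHom.toAlgebra
  obtain ⟨G, hG⟩ := (hfin : Module.Finite k[X] V).fg_top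
  refine ⟨G, Submodule.eq_top_iff'.mpr fun y => ?_⟩
  have hy : y ∈ Submodule.span k[X] (G : Set V) := hG ▸ Submodule.mem_top
  induction hy using Submodule.span_induction with
  | mem g hg => exact Submodule.subset_span ⟨g, hg, 0, by simp⟩
  | zero => exact zero_mem _
  | add _ _ _ _ h1 h2 => exact add_mem h1 h2
  | smul p z _ hz =>
    clear * - hz
    induction hz using Submodule.span_induction with
    | mem w hw =>
      obtain ⟨g, hg, j, rfl⟩ := hw
      induction p using Polynomial.induction_on' with
      | add p q hp hq => rw [add_smul]; exact add_mem hp hq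
      | monomial i c =>
        have : (Polynomial.monomial i c : k[X]) • (v ^ j * g) = c • (v ^ (i + j) * g) := by
          rw [Algebra.smul_def, RingHom.algebraMap_toAlgebra]
          simp [Polynomial.aeval_monomial, Algebra.smul_def, pow_add, mul_assoc]
        rw [this]
        exact Submodule.smul_mem _ c (Submodule.subset_span ⟨g, hg, i + j, rfl⟩)
    | zero => rw [smul_zero]; exact zero_mem _
    | add _ _ _ _ h1 h2 => rw [smul_add]; exact add_mem h1 h2
    | smul c w _ hw => rw [smul_comm]; exact Submodule.smul_mem _ c hw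

namespace CurveModel

variable {k : Type u} [Field k] (m : CurveModel k) (A : Type u) [CommRing A] [Algebra k A]

/-- The function `t` on the overlap. -/
noncomputable def θ0 : m.R01 A := m.ι0 A (m.tA A)

/-- The function `s` on the overlap. -/
noncomputable def θ1 : m.R01 A := m.ι1 A (m.sA A)

theorem ι0_apply_tmul (a : A) (b : m.B0) : m.ι0 A (a ⊗ₜ[k] b) = a ⊗ₜ[k] m.i0 b := rfl

theorem ι1_apply_tmul (a : A) (b : m.B1) : m.ι1 A (a ⊗ₜ[k] b) = a ⊗ₜ[k] m.i1 b := rfl

theorem θ0_mul_θ1 : m.θ0 A * m.θ1 A = 1 := by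
  rw [θ0, θ1, tA, sA, ι0_apply_tmul, ι1_apply_tmul, Algebra.TensorProduct.tmul_mul_tmul, m.t_mul_s,
    one_mul, Algebra.TensorProduct.one_def]

theorem θ1_mul_θ0 : m.θ1 A * m.θ0 A = 1 := by
  rw [mul_comm, θ0_mul_θ1]

theorem θ0_pow_mul_θ1_pow (n : ℕ) : m.θ0 A ^ n * m.θ1 A ^ n = 1 := by
  rw [← mul_pow, θ0_mul_θ1, one_pow]

theorem θ1_pow_mul_θ0_pow (n : ℕ) : m.θ1 A ^ n * m.θ0 A ^ n = 1 := by
  rw [← mul_pow, θ1_mul_θ0, one_pow]

theorem ι0_eq_baseChange (x : m.R0 A) : m.ι0 A x = m.i0.toLinearMap.baseChange A x := by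
  induction x using TensorProduct.induction_on with
  | zero => simp
  | tmul a b => rfl
  | add _ _ h1 h2 => simp only [map_add, h1, h2]

theorem ι1_eq_baseChange (x : m.R1 A) : m.ι1 A x = m.i1.toLinearMap.baseChange A x := by
  induction x using TensorProduct.induction_on with
  | zero => simp
  | tmul a b => rfl
  | add _ _ h1 h2 => simp only [map_add, h1, h2]

theorem ι1_restriction_injective : Function.Injective (m.ι1 A) := by
  intro x y h
  rw [ι1_eq_baseChange, ι1_eq_baseChange] at h
  exact Module.Flat.lTensor_preserves_injective_linearMap (M := A) m.i1.toLinearMap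
    m.i1_injective h

theorem exists_ι0_eq (z : m.R01 A) : ∃ (n : ℕ) (y : m.R0 A), m.ι0 A y = m.θ0 A ^ n * z := by
  induction z using TensorProduct.induction_on with
  | zero => exact ⟨0, 0, by simp⟩
  | tmul a b =>
    obtain ⟨n, y, hy⟩ := m.surj0 b
    refine ⟨n, a ⊗ₜ y, ?_⟩
    simp [θ0, tA, ι0_apply_tmul, hy]
  | add z z' h h' =>
    obtain ⟨n, y, hy⟩ := h
    obtain ⟨n', y', hy'⟩ := h'
    refine ⟨n + n', m.tA A ^ n' * y + m.tA A ^ n * y', ?_⟩
    rw [map_add, map_mul, map_mul, map_pow, map_pow, ← θ0, hy, hy', pow_add]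
    ring

theorem exists_ι1_eq (z : m.R01 A) : ∃ (n : ℕ) (y : m.R1 A), m.ι1 A y = m.θ1 A ^ n * z := by
  induction z using TensorProduct.induction_on with
  | zero => exact ⟨0, 0, by simp⟩
  | tmul a b =>
    obtain ⟨n, y, hy⟩ := m.surj1 b
    refine ⟨n, a ⊗ₜ y, ?_⟩
    simp [θ1, sA, ι1_apply_tmul, hy]
  | add z z' h h' =>
    obtain ⟨n, y, hy⟩ := h
    obtain ⟨n', y', hy'⟩ := h'
    refine ⟨n + n', m.sA A ^ n' * y + m.sA A ^ n * y', ?_⟩
    rw [map_add, map_mul, map_mul, map_pow, map_pow, ← θ1, hy, hy', pow_add]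
    ring

/-- The overlap is a domain. -/
theorem isDomain_B01 : IsDomain m.B01 := by
  have : IsDomain (AlgebraicClosure k ⊗[k] m.B01) := m.domain01 (AlgebraicClosure k)
  exact Function.Injective.isDomain
    (Algebra.TensorProduct.includeRight : m.B01 →ₐ[k] AlgebraicClosure k ⊗[k] m.B01).toRingHom
    (Algebra.TensorProduct.includeRight_injective (algebraMap k (AlgebraicClosure k)).injective)

/-- Functions on the first chart with bounded pole order at infinity form a finite space. -/
theorem fg_bounded0 (N : ℕ) :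
    ((LinearMap.range (LinearMap.mulLeft k (m.i0 m.t ^ N) ∘ₗ m.i1.toLinearMap)).comap
      m.i0.toLinearMap).FG := by
  classical
  let : Algebra k[X] m.B0 := (Polynomial.aeval (R := k) m.t).toRingHom.toAlgebra
  have : IsScalarTower k k[X] m.B0 := IsScalarTower.of_algebraMap_eq fun c => by
    simp [RingHom.algebraMap_toAlgebra]
  have : Module.Finite k[X] m.B0 := m.finite0
  have := m.isDomain_B01
  have : IsDomain m.B0 := Function.Injective.isDomain m.i0.toRingHom m.i0_injective
  have : FaithfulSMul k[X] m.B0 := (faithfulSMul_iff_algebraMap_injective k[X] m.B0).mpr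
    (transcendental_iff_injective.mp m.transcendental0)
  let b := Module.Free.chooseBasis k[X] m.B0
  choose M h hh using fun g : m.B1 => m.surj0 (m.i1 g)
  obtain ⟨G, hG⟩ := exists_span_pow m.s m.finite1
  let H : ℕ := G.sup fun g => Finset.univ.sup fun i => (b.repr (h g) i).natDegree
  have hrepr : ∀ (j : ℕ) (z : m.B0) (i),
      b.repr (m.t ^ j * z) i = Polynomial.X ^ j * b.repr z i := by
    intro j z i
    have : m.t ^ j * z = (Polynomial.X ^ j : k[X]) • z := by
      rw [Algebra.smul_def, RingHom.algebraMap_toAlgebra]; simp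
    rw [this, map_smul, Finsupp.smul_apply, smul_eq_mul]
  have hC : ∀ y : m.B1, ∃ (e : ℕ) (z : m.B0), (∀ i, (b.repr z i).natDegree ≤ e + H) ∧
      m.i0 z = m.i0 m.t ^ e * m.i1 y := by
    intro y
    have hy : y ∈ Submodule.span k {y : m.B1 | ∃ g ∈ G, ∃ j : ℕ, y = m.s ^ j * g} :=
      hG ▸ Submodule.mem_top
    induction hy using Submodule.span_induction with
    | mem y hy =>
      obtain ⟨g, hg, j, rfl⟩ := hy
      refine ⟨M g + j, h g, fun i => le_trans ?_ (Nat.le_add_left _ _), ?_⟩
      · exact le_trans (Finset.le_sup (f := fun i => (b.repr (h g) i).natDegree)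
          (Finset.mem_univ i)) (Finset.le_sup
            (f := fun g => Finset.univ.sup fun i => (b.repr (h g) i).natDegree) hg)
      · rw [hh, pow_add, map_mul, map_pow,
          show m.i0 m.t ^ M g * m.i0 m.t ^ j * (m.i1 m.s ^ j * m.i1 g) =
            m.i0 m.t ^ M g * m.i1 g * (m.i0 m.t * m.i1 m.s) ^ j by ring, m.t_mul_s,
          one_pow, mul_one]
    | zero => exact ⟨0, 0, by simp, by simp⟩
    | add y y' _ _ ih ih' =>
      obtain ⟨e, z, hz, he⟩ := ih
      obtain ⟨e', z', hz', he'⟩ := ih'
      refine ⟨e + e', m.t ^ e' * z + m.t ^ e * z', fun i => ?_, ?_⟩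
      · rw [map_add, Finsupp.add_apply, hrepr, hrepr]
        have h1 := (Polynomial.natDegree_mul_le (p := Polynomial.X ^ e') (q := b.repr z i)).trans
          (add_le_add (Polynomial.natDegree_X_pow_le _) (hz i))
        have h2 := (Polynomial.natDegree_mul_le (p := Polynomial.X ^ e) (q := b.repr z' i)).trans
          (add_le_add (Polynomial.natDegree_X_pow_le _) (hz' i))
        exact (Polynomial.natDegree_add_le _ _).trans (max_le (by omega) (by omega))
      · simp only [map_add, map_mul, map_pow, he, he', pow_add]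
        ring
    | smul c y _ ih =>
      obtain ⟨e, z, hz, he⟩ := ih
      refine ⟨e, c • z, fun i => ?_, ?_⟩
      · rw [← algebraMap_smul k[X] c z, map_smul, Finsupp.smul_apply, smul_eq_mul]
        exact (Polynomial.natDegree_C_mul_le c _).trans (hz i)
      · rw [map_smul, map_smul, he, mul_smul_comm]
  refine Submodule.FG.of_le
    (T := Submodule.span k
      (Set.range fun p : Fin (N + H + 1) × Module.Free.ChooseBasisIndex k[X] m.B0 =>
        m.t ^ (p.1 : ℕ) * b p.2))
    (Submodule.fg_span (Set.finite_range _)) ?_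
  rintro x ⟨y, hy⟩
  change m.i0 m.t ^ N * m.i1 y = m.i0 x at hy
  obtain ⟨e, z, hz, he⟩ := hC y
  have hxz : m.t ^ e * x = m.t ^ N * z := by
    apply m.i0_injective
    simp only [map_mul, map_pow, ← hy, he]
    ring
  have hdeg : ∀ i, (b.repr x i).natDegree < N + H + 1 := by
    intro i
    by_cases h0 : b.repr x i = 0
    · simp [h0]
    have hXe : (Polynomial.X ^ e : k[X]) * b.repr x i = Polynomial.X ^ N * b.repr z i := by
      rw [← hrepr, ← hrepr, hxz]
    have h1 := congrArg Polynomial.natDegree hXe
    rw [Polynomial.natDegree_mul (pow_ne_zero _ Polynomial.X_ne_zero) h0,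
      Polynomial.natDegree_X_pow] at h1
    have h2 := (Polynomial.natDegree_mul_le (p := Polynomial.X ^ N) (q := b.repr z i)).trans
      (add_le_add (Polynomial.natDegree_X_pow_le _) (hz i))
    omega
  rw [← b.sum_repr x]
  refine Submodule.sum_mem _ fun i _ => ?_
  rw [Polynomial.as_sum_range_C_mul_X_pow' (p := b.repr x i) (hdeg i), Finset.sum_smul]
  refine Submodule.sum_mem _ fun j hj => ?_
  have : (Polynomial.C (b.repr x i |>.coeff j) * Polynomial.X ^ j : k[X]) • b i =
      (b.repr x i).coeff j • (m.t ^ j * b i) := by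
    rw [Algebra.smul_def, RingHom.algebraMap_toAlgebra]
    simp [Algebra.smul_def, mul_assoc]
  rw [this]
  exact Submodule.smul_mem _ _
    (Submodule.subset_span ⟨(⟨j, Finset.mem_range.mp hj⟩, i), rfl⟩)

/-- Functions on the second chart with bounded pole order at zero form a finite space. -/
theorem fg_bounded1 (N : ℕ) :
    ((LinearMap.range m.i0.toLinearMap).comap
      (LinearMap.mulLeft k (m.i0 m.t ^ N) ∘ₗ m.i1.toLinearMap)).FG := by
  refine Submodule.fg_of_fg_map_injective
    (LinearMap.mulLeft k (m.i0 m.t ^ N) ∘ₗ m.i1.toLinearMap) ?_ ?_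
  · intro x y hxy
    refine m.i1_injective ((IsUnit.of_mul_eq_one _ m.t_mul_s).pow N |>.mul_left_cancel ?_)
    exact hxy
  · refine Submodule.FG.of_le ((m.fg_bounded0 N).map m.i0.toLinearMap) ?_
    rintro _ ⟨y, ⟨x, hx⟩, rfl⟩
    exact ⟨x, ⟨y, hx.symm⟩, hx⟩

theorem baseChange_mulLeft_comp_i1 (N : ℕ) (y : m.R1 A) :
    (LinearMap.mulLeft k (m.i0 m.t ^ N) ∘ₗ m.i1.toLinearMap).baseChange A y =
      m.θ0 A ^ N * m.ι1 A y := by
  induction y using TensorProduct.induction_on with
  | zero => simp
  | tmul a b => simp [θ0, tA, ι0_apply_tmul, ι1_apply_tmul]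
  | add _ _ h1 h2 => simp only [map_add, h1, h2, mul_add]

/-- Functions on the first chart over `A` with bounded pole order at infinity. -/
theorem exists_fg_bounded0 (N : ℕ) : ∃ S : Submodule A (m.R0 A), S.FG ∧
    ∀ (x : m.R0 A) (y : m.R1 A), m.ι0 A x = m.θ0 A ^ N * m.ι1 A y → x ∈ S := by
  refine ⟨_, fg_baseChange A (m.fg_bounded0 N), fun x y h => ?_⟩
  refine mem_baseChange_comap_range A _ _ x y ?_
  rw [← ι0_eq_baseChange, h, baseChange_mulLeft_comp_i1]

/-- Functions on the second chart over `A` with bounded pole order at zero. -/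
theorem exists_fg_bounded1 (N : ℕ) : ∃ S : Submodule A (m.R1 A), S.FG ∧
    ∀ (y : m.R1 A) (x : m.R0 A), m.ι1 A y = m.θ1 A ^ N * m.ι0 A x → y ∈ S := by
  refine ⟨_, fg_baseChange A (m.fg_bounded1 N), fun y x h => ?_⟩
  refine mem_baseChange_comap_range A _ _ y x ?_
  rw [baseChange_mulLeft_comp_i1, h, ← ι0_eq_baseChange, ← mul_assoc, θ0_pow_mul_θ1_pow, one_mul]

/-- The only functions on both charts are constants. -/
theorem exists_const (x0 : m.R0 A) (x1 : m.R1 A) (h : m.ι0 A x0 = m.ι1 A x1) :
    ∃ a : A, x0 = algebraMap A (m.R0 A) a ∧ x1 = algebraMap A (m.R1 A) a := by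
  have hx := mem_baseChange_comap_range A m.i0.toLinearMap m.i1.toLinearMap x0 x1
    (by rw [← ι0_eq_baseChange, ← ι1_eq_baseChange, h])
  have hle : (LinearMap.range m.i1.toLinearMap).comap m.i0.toLinearMap ≤
      Submodule.span k {(1 : m.B0)} := by
    rintro x ⟨y, hy⟩
    obtain ⟨a, ha⟩ := m.global_const x y hy.symm
    exact Submodule.mem_span_singleton.mpr ⟨a, by rw [ha, Algebra.algebraMap_eq_smul_one]⟩
  have hx' : x0 ∈ Submodule.span A {(1 : m.R0 A)} := by
    have := Submodule.baseChange_mono A hle hx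
    rwa [Submodule.baseChange_span, Set.image_singleton, TensorProduct.mk_apply,
      ← Algebra.TensorProduct.one_def] at this
  obtain ⟨a, ha⟩ := Submodule.mem_span_singleton.mp hx'
  have hx0 : x0 = algebraMap A (m.R0 A) a := by rw [← ha, Algebra.algebraMap_eq_smul_one]
  refine ⟨a, hx0, m.ι1_restriction_injective A ?_⟩
  rw [← h, hx0]
  simp [ι0, ι1]

theorem algebraMap_R0_injective : Function.Injective (algebraMap A (m.R0 A)) := by
  have : Nontrivial m.B0 := by
    have := m.isDomain_B01
    exact m.i0.toRingHom.domain_nontrivial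
  exact Algebra.TensorProduct.includeLeft_injective (S := k) (algebraMap k m.B0).injective

end CurveModel

end Fermat.Agent.Jac
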