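import Mathlib

/-!
# Semilinear maps between invertible modules with generating image

Such maps are extensions of scalars: semilinear maps out of the source extend
(`exists_extend_semilinear`), and the maps are base changes (`isBaseChange_of_span_eq_top`).
-/

set_option autoImplicit false

universe u

open scoped TensorProduct

namespace Fermat.Agent.Jac

variable {R S : Type u} [CommRing R] [CommRing S] {σ : R →+* S}
variable {M N : Type u} [AddCommGroup M] [Module R M] [Module.Invertible R M]
variable [AddCommGroup N] [Module S N] [Module.Invertible S N]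

/-- Semilinear maps extend along a map of invertible modules with generating image. -/
theorem exists_extend_semilinear (f : M →ₛₗ[σ] N) (hf : Submodule.span S (Set.range f) = ⊤)
    {P : Type u} [AddCommGroup P] [Module S P] (h : M →ₛₗ[σ] P) :
    ∃ h' : N →ₗ[S] P, ∀ x, h' (f x) = h x := by
  let : Algebra R S := σ.toAlgebra
  let : Module R N := Module.compHom N σ
  let : Module R P := Module.compHom P σ
  have : IsScalarTower R S N := IsScalarTower.of_algebraMap_smul fun _ _ => rfl
  have : IsScalarTower R S P := IsScalarTower.of_algebraMap_smul fun _ _ => rfl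
  let f' : M →ₗ[R] N := ⟨f.toAddMonoidHom.toAddHom, fun r x => f.map_smulₛₗ r x⟩
  let h'' : M →ₗ[R] P := ⟨h.toAddMonoidHom.toAddHom, fun r x => h.map_smulₛₗ r x⟩
  have hsurj : Function.Surjective (f'.liftBaseChange S) := by
    rw [← LinearMap.range_eq_top, eq_top_iff, ← hf, Submodule.span_le]
    rintro _ ⟨x, rfl⟩
    exact ⟨1 ⊗ₜ x, by rw [LinearMap.liftBaseChange_tmul, one_smul]; rfl⟩
  let e := LinearEquiv.ofBijective _ (Module.Invertible.bijective_of_surjective hsurj)
  refine ⟨h''.liftBaseChange S ∘ₗ e.symm.toLinearMap, fun x => ?_⟩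
  have hx : e.symm (f x) = 1 ⊗ₜ x := by
    apply e.injective
    rw [e.apply_symm_apply]
    simp [e, f']
  rw [LinearMap.comp_apply, LinearEquiv.coe_coe, hx, LinearMap.liftBaseChange_tmul, one_smul]
  rfl

omit [Module.Invertible R M] in
/-- A finite projective module has a finite dual basis. -/
theorem exists_dualBasis [Module.Finite R M] [Module.Projective R M] :
    ∃ (n : ℕ) (b : Fin n → M) (g : Fin n → M →ₗ[R] R), ∀ x, x = ∑ i, g i x • b i := by
  obtain ⟨n, π, σ', -, -, h⟩ := Module.Finite.exists_comp_eq_id_of_projective R M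
  refine ⟨n, fun i => π (Pi.single i 1), fun i => LinearMap.proj i ∘ₗ σ', fun x => ?_⟩
  have hx : x = π (σ' x) := (LinearMap.congr_fun h x).symm
  conv_lhs => rw [hx, pi_eq_sum_univ (σ' x), map_sum]
  refine Finset.sum_congr rfl fun i _ => ?_
  rw [map_smul]
  congr 2
  funext j
  simp [Pi.single_apply, eq_comm]

/-- Extension of scalars from `A` to `B` of a module over `A ⊗[k] V`: a semilinear map over
`A ⊗[k] V → B ⊗[k] V` with generating image is an extension of scalars along `A → B`. -/
theorem isBaseChange_of_span_eq_top {k A B V : Type u} [Field k] [CommRing A] [Algebra k A]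
    [CommRing B] [Algebra k B] [Algebra A B] [IsScalarTower k A B] [CommRing V] [Algebra k V]
    {τ : A ⊗[k] V →+* B ⊗[k] V}
    (hτ : ∀ (a : A) (v : V), τ (a ⊗ₜ v) = algebraMap A B a ⊗ₜ v)
    {M : Type u} [AddCommGroup M] [Module (A ⊗[k] V) M] [Module A M]
    [IsScalarTower A (A ⊗[k] V) M] [Module.Invertible (A ⊗[k] V) M]
    {N : Type u} [AddCommGroup N] [Module (B ⊗[k] V) N] [Module B N]
    [IsScalarTower B (B ⊗[k] V) N] [Module.Invertible (B ⊗[k] V) N]
    [Module A N] [IsScalarTower A B N]
    (f : M →ₛₗ[τ] N) (hf : Submodule.span (B ⊗[k] V) (Set.range f) = ⊤) :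
    ∃ f' : M →ₗ[A] N, (∀ x, f' x = f x) ∧ IsBaseChange B f' := by
  have hBsmul : ∀ (b : B) (x : N), b • x = (b ⊗ₜ[k] (1 : V)) • x := fun b x => by
    rw [← IsScalarTower.algebraMap_smul (B ⊗[k] V) b x, Algebra.TensorProduct.algebraMap_apply]
    rfl
  have hAsmul : ∀ (a : A) (x : M), a • x = (a ⊗ₜ[k] (1 : V)) • x := fun a x => by
    rw [← IsScalarTower.algebraMap_smul (A ⊗[k] V) a x, Algebra.TensorProduct.algebraMap_apply]
    rfl
  let f' : M →ₗ[A] N :=
    ⟨f.toAddMonoidHom.toAddHom, fun a x => by
      change f (a • x) = a • f x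
      rw [hAsmul, f.map_smulₛₗ, hτ, ← hBsmul, IsScalarTower.algebraMap_smul]⟩
  refine ⟨f', fun _ => rfl, ?_⟩
  let L : B ⊗[A] M →ₗ[B] N := f'.liftBaseChange B
  have hL : ∀ (b : B) (x : M), L (b ⊗ₜ x) = b • f x := fun b x => rfl
  -- surjectivity
  have hcl : ∀ (r : B ⊗[k] V) (z : B ⊗[A] M), ∃ z', L z' = r • L z := by
    intro r z
    induction z using TensorProduct.induction_on with
    | zero => exact ⟨0, by simp⟩
    | add z1 z2 h1 h2 =>
      obtain ⟨a, ha⟩ := h1
      obtain ⟨b, hb⟩ := h2
      exact ⟨a + b, by simp [ha, hb, smul_add]⟩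
    | tmul b x =>
      induction r using TensorProduct.induction_on with
      | zero => exact ⟨0, by simp⟩
      | add r1 r2 h1 h2 =>
        obtain ⟨a, ha⟩ := h1
        obtain ⟨c, hc⟩ := h2
        exact ⟨a + c, by simp [ha, hc, add_smul]⟩
      | tmul b' v =>
        refine ⟨(b' * b) ⊗ₜ (((1 : A) ⊗ₜ[k] v) • x), ?_⟩
        rw [hL, hL, f.map_smulₛₗ, hτ, map_one, hBsmul, hBsmul, smul_smul, smul_smul]
        congr 1
        simp
  have hsurj : Function.Surjective L := by
    intro y
    have hy : y ∈ Submodule.span (B ⊗[k] V) (Set.range f) := hf ▸ Submodule.mem_top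
    induction hy using Submodule.span_induction with
    | mem _ hy =>
      obtain ⟨x, rfl⟩ := hy
      exact ⟨1 ⊗ₜ x, by rw [hL, one_smul]⟩
    | zero => exact ⟨0, map_zero _⟩
    | add _ _ _ _ h1 h2 =>
      obtain ⟨a, ha⟩ := h1
      obtain ⟨b, hb⟩ := h2
      exact ⟨a + b, by rw [map_add, ha, hb]⟩
    | smul r _ _ h =>
      obtain ⟨z, rfl⟩ := h
      exact hcl r z
  -- a left inverse
  obtain ⟨n, b, g, hg⟩ := exists_dualBasis (R := A ⊗[k] V) (M := M)
  let h : Fin n → M →ₛₗ[τ] B ⊗[k] V := fun i =>
    ⟨(τ.toAddMonoidHom.comp (g i).toAddMonoidHom).toAddHom, fun r y => by simp⟩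
  choose G hG using fun i => exists_extend_semilinear f hf (h i)
  let Φ : Fin n → B ⊗[k] V →ₗ[B] B ⊗[A] M := fun i =>
    TensorProduct.AlgebraTensorModule.lift
      ((LinearMap.lsmul B (V →ₗ[k] B ⊗[A] M)).flip
        { toFun := fun v => (1 : B) ⊗ₜ[A] (((1 : A) ⊗ₜ[k] v) • b i)
          map_add' := fun v w => by simp [TensorProduct.tmul_add, add_smul]
          map_smul' := fun c v => by
            rw [RingHom.id_apply, TensorProduct.tmul_smul (R := k) c (1 : A) v,
              ← algebraMap_smul A c ((1 : A) ⊗ₜ[k] v), smul_assoc, TensorProduct.tmul_smul,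
              ← algebraMap_smul B c ((1 : B) ⊗ₜ[A] (((1 : A) ⊗ₜ[k] v) • b i)),
              TensorProduct.smul_tmul', TensorProduct.smul_tmul']
            congr 1
            rw [Algebra.smul_def, IsScalarTower.algebraMap_apply k A B]
            simp })
  have hΦ : ∀ i (r : A ⊗[k] V), Φ i (τ r) = (1 : B) ⊗ₜ[A] (r • b i) := by
    intro i r
    induction r using TensorProduct.induction_on with
    | zero => simp
    | add r1 r2 h1 h2 => rw [map_add, map_add, h1, h2, add_smul, TensorProduct.tmul_add]
    | tmul a v =>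
      rw [hτ]
      simp only [Φ, TensorProduct.AlgebraTensorModule.lift_tmul, LinearMap.flip_apply,
        LinearMap.lsmul_apply, LinearMap.smul_apply, LinearMap.coe_mk, AddHom.coe_mk]
      rw [TensorProduct.smul_tmul', smul_eq_mul, mul_one, Algebra.algebraMap_eq_smul_one,
        TensorProduct.smul_tmul, ← smul_assoc, TensorProduct.smul_tmul', smul_eq_mul, mul_one]
  let Ψ : N →ₗ[B] B ⊗[A] M := ∑ i, Φ i ∘ₗ (G i).restrictScalars B
  have hΨ : ∀ z, Ψ (L z) = z := by
    intro z
    induction z using TensorProduct.induction_on with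
    | zero => simp
    | add z1 z2 h1 h2 => rw [map_add, map_add, h1, h2]
    | tmul c x =>
      rw [hL, map_smul]
      simp only [Ψ, LinearMap.sum_apply, LinearMap.comp_apply, LinearMap.restrictScalars_apply, hG]
      conv_rhs => rw [← mul_one c, ← smul_eq_mul, ← TensorProduct.smul_tmul', hg x,
        TensorProduct.tmul_sum]
      congr 1
      exact Finset.sum_congr rfl fun i _ => hΦ i (g i x)
  exact ⟨Function.LeftInverse.injective hΨ, hsurj⟩

end Fermat.Agent.Jac
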