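import Mathlib

/-!
# Split two-term complexes and criteria for bijectivity

A linear map which is made surjective by adding a finite free module with finitely generated
projective kernel has the same kernel and cokernel as a map of finitely generated projective
modules, compatibly with extension of scalars.
-/

set_option autoImplicit false

universe u

open scoped TensorProduct

namespace Fermat.Agent.Jac

variable {A : Type u} [CommRing A]
variable {P M : Type u} [AddCommGroup P] [Module A P] [AddCommGroup M] [Module A M]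

/-- A homotopy equivalence between `c` and a map `δ` of finitely generated projective modules,
recorded through a split surjection `P × F → M` with kernel `K`. -/
structure SplitComplex (c : P →ₗ[A] M) : Type (u + 1) where
  K : Type u
  F : Type u
  [addCommGroupK : AddCommGroup K]
  [addCommGroupF : AddCommGroup F]
  [moduleK : Module A K]
  [moduleF : Module A F]
  [finiteK : Module.Finite A K]
  [projectiveK : Module.Projective A K]
  [finiteF : Module.Finite A F]
  [freeF : Module.Free A F]
  δ : K →ₗ[A] F
  p : K →ₗ[A] P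
  u : F →ₗ[A] M
  r1 : P →ₗ[A] K
  r2 : F →ₗ[A] K
  σ1 : M →ₗ[A] P
  σ2 : M →ₗ[A] F
  comp_eq : c ∘ₗ p + u ∘ₗ δ = 0
  id_P : p ∘ₗ r1 + σ1 ∘ₗ c = LinearMap.id
  zero_PF : δ ∘ₗ r1 + σ2 ∘ₗ c = 0
  zero_FP : p ∘ₗ r2 + σ1 ∘ₗ u = 0
  id_F : δ ∘ₗ r2 + σ2 ∘ₗ u = LinearMap.id
  id_M : c ∘ₗ σ1 + u ∘ₗ σ2 = LinearMap.id
  id_K : r1 ∘ₗ p + r2 ∘ₗ δ = LinearMap.id

attribute [instance] SplitComplex.addCommGroupK SplitComplex.addCommGroupF SplitComplex.moduleK
  SplitComplex.moduleF SplitComplex.finiteK SplitComplex.projectiveK SplitComplex.finiteF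
  SplitComplex.freeF

namespace SplitComplex

variable {c : P →ₗ[A] M} (T : SplitComplex c)

theorem id_P_apply (x : P) : T.p (T.r1 x) + T.σ1 (c x) = x := LinearMap.congr_fun T.id_P x

theorem zero_PF_apply (x : P) : T.δ (T.r1 x) + T.σ2 (c x) = 0 := LinearMap.congr_fun T.zero_PF x

theorem comp_eq_apply (z : T.K) : c (T.p z) + T.u (T.δ z) = 0 := LinearMap.congr_fun T.comp_eq z

theorem id_F_apply (f : T.F) : T.δ (T.r2 f) + T.σ2 (T.u f) = f := LinearMap.congr_fun T.id_F f

theorem id_M_apply (x : M) : c (T.σ1 x) + T.u (T.σ2 x) = x := LinearMap.congr_fun T.id_M x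

theorem id_K_apply (z : T.K) : T.r1 (T.p z) + T.r2 (T.δ z) = z := LinearMap.congr_fun T.id_K z

/-- The two maps have the same kernel. -/
noncomputable def kerEquiv : LinearMap.ker c ≃ₗ[A] LinearMap.ker T.δ :=
  LinearEquiv.ofLinearMap
    ((T.r1 ∘ₗ (LinearMap.ker c).subtype).codRestrict (LinearMap.ker T.δ) fun x => by
      have := T.zero_PF_apply x.1
      rwa [LinearMap.mem_ker.mp x.2, map_zero, add_zero] at this)
    ((T.p ∘ₗ (LinearMap.ker T.δ).subtype).codRestrict (LinearMap.ker c) fun z => by
      have := T.comp_eq_apply z.1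
      rwa [LinearMap.mem_ker.mp z.2, map_zero, add_zero] at this)
    (LinearMap.ext fun z => Subtype.ext (by
      change T.r1 (T.p z.1) = z.1
      have := T.id_K_apply z.1
      rwa [LinearMap.mem_ker.mp z.2, map_zero, add_zero] at this))
    (LinearMap.ext fun x => Subtype.ext (by
      change T.p (T.r1 x.1) = x.1
      have := T.id_P_apply x.1
      rwa [LinearMap.mem_ker.mp x.2, map_zero, add_zero] at this))

/-- The two maps have the same cokernel. -/
noncomputable def cokerEquiv : (M ⧸ LinearMap.range c) ≃ₗ[A] T.F ⧸ LinearMap.range T.δ :=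
  LinearEquiv.ofLinearMap
    ((LinearMap.range c).mapQ (LinearMap.range T.δ) T.σ2 (by
      rintro _ ⟨x, rfl⟩
      exact ⟨-T.r1 x, by rw [map_neg, eq_neg_of_add_eq_zero_left (T.zero_PF_apply x), neg_neg]⟩))
    ((LinearMap.range T.δ).mapQ (LinearMap.range c) T.u (by
      rintro _ ⟨z, rfl⟩
      exact ⟨-T.p z, by rw [map_neg, eq_neg_of_add_eq_zero_left (T.comp_eq_apply z), neg_neg]⟩))
    (Submodule.linearMap_qext _ (LinearMap.ext fun f => by
      refine (Submodule.Quotient.eq _).mpr ⟨-T.r2 f, ?_⟩
      rw [map_neg, neg_eq_iff_eq_neg, neg_sub, eq_sub_iff_add_eq]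
      exact T.id_F_apply f))
    (Submodule.linearMap_qext _ (LinearMap.ext fun x => by
      refine (Submodule.Quotient.eq _).mpr ⟨-T.σ1 x, ?_⟩
      rw [map_neg, neg_eq_iff_eq_neg, neg_sub, eq_sub_iff_add_eq]
      exact T.id_M_apply x))

theorem bijective_iff : Function.Bijective c ↔ Function.Bijective T.δ := by
  rw [Function.Bijective, Function.Bijective, ← LinearMap.ker_eq_bot,
    ← LinearMap.ker_eq_bot, ← LinearMap.range_eq_top, ← LinearMap.range_eq_top,
    ← Submodule.subsingleton_iff_eq_bot, ← Submodule.subsingleton_iff_eq_bot,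
    ← Submodule.Quotient.subsingleton_iff, ← Submodule.Quotient.subsingleton_iff,
    T.kerEquiv.toEquiv.subsingleton_congr, T.cokerEquiv.toEquiv.subsingleton_congr]

/-- Extension of scalars. -/
noncomputable def baseChange (B : Type u) [CommRing B] [Algebra A B] :
    SplitComplex (c.baseChange B) where
  K := B ⊗[A] T.K
  F := B ⊗[A] T.F
  δ := T.δ.baseChange B
  p := T.p.baseChange B
  u := T.u.baseChange B
  r1 := T.r1.baseChange B
  r2 := T.r2.baseChange B
  σ1 := T.σ1.baseChange B
  σ2 := T.σ2.baseChange B
  comp_eq := by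
    rw [← LinearMap.baseChange_comp, ← LinearMap.baseChange_comp, ← LinearMap.baseChange_add,
      T.comp_eq, LinearMap.baseChange_zero]
  id_P := by
    rw [← LinearMap.baseChange_comp, ← LinearMap.baseChange_comp, ← LinearMap.baseChange_add,
      T.id_P, LinearMap.baseChange_id]
  zero_PF := by
    rw [← LinearMap.baseChange_comp, ← LinearMap.baseChange_comp, ← LinearMap.baseChange_add,
      T.zero_PF, LinearMap.baseChange_zero]
  zero_FP := by
    rw [← LinearMap.baseChange_comp, ← LinearMap.baseChange_comp, ← LinearMap.baseChange_add,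
      T.zero_FP, LinearMap.baseChange_zero]
  id_F := by
    rw [← LinearMap.baseChange_comp, ← LinearMap.baseChange_comp, ← LinearMap.baseChange_add,
      T.id_F, LinearMap.baseChange_id]
  id_M := by
    rw [← LinearMap.baseChange_comp, ← LinearMap.baseChange_comp, ← LinearMap.baseChange_add,
      T.id_M, LinearMap.baseChange_id]
  id_K := by
    rw [← LinearMap.baseChange_comp, ← LinearMap.baseChange_comp, ← LinearMap.baseChange_add,
      T.id_K, LinearMap.baseChange_id]

/-- Transport along isomorphisms. -/
noncomputable def ofEquiv {P' M' : Type u} [AddCommGroup P'] [Module A P'] [AddCommGroup M']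
    [Module A M'] {c' : P' →ₗ[A] M'} (eP : P ≃ₗ[A] P') (eM : M ≃ₗ[A] M')
    (h : ∀ x, c' (eP x) = eM (c x)) : SplitComplex c' where
  K := T.K
  F := T.F
  δ := T.δ
  p := eP.toLinearMap ∘ₗ T.p
  u := eM.toLinearMap ∘ₗ T.u
  r1 := T.r1 ∘ₗ eP.symm.toLinearMap
  r2 := T.r2
  σ1 := eP.toLinearMap ∘ₗ T.σ1 ∘ₗ eM.symm.toLinearMap
  σ2 := T.σ2 ∘ₗ eM.symm.toLinearMap
  comp_eq := LinearMap.ext fun z => by simp [h, ← map_add, T.comp_eq_apply]
  id_P := LinearMap.ext fun x => by
    obtain ⟨x, rfl⟩ := eP.surjective x
    simp [h, ← map_add, T.id_P_apply]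
  zero_PF := LinearMap.ext fun x => by
    obtain ⟨x, rfl⟩ := eP.surjective x
    simp [h, T.zero_PF_apply]
  zero_FP := LinearMap.ext fun f => by
    have := LinearMap.congr_fun T.zero_FP f
    simp_all [← map_add]
  id_F := LinearMap.ext fun f => by simp [T.id_F_apply]
  id_M := LinearMap.ext fun x => by
    obtain ⟨x, rfl⟩ := eM.surjective x
    simp [h, ← map_add, T.id_M_apply]
  id_K := LinearMap.ext fun z => by simp [T.id_K_apply]

/-- A map becoming surjective after adding a finite free module, with finitely generated kernel. -/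
theorem nonempty_of_coprod [Module.Projective A P] [Module.Projective A M] (c : P →ₗ[A] M)
    {F : Type u} [AddCommGroup F] [Module A F] [Module.Finite A F] [Module.Free A F]
    (u : F →ₗ[A] M) (hφ : Function.Surjective (c.coprod u)) (G : Submodule A (P × F)) (hG : G.FG)
    (hK : LinearMap.ker (c.coprod u) ≤ G) : Nonempty (SplitComplex c) := by
  obtain ⟨σ, hσ⟩ := Module.projective_lifting_property (c.coprod u) LinearMap.id hφ
  have hσ' : ∀ x, c (σ x).1 + u (σ x).2 = x := fun x => by
    simpa using LinearMap.congr_fun hσ x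
  let φ := c.coprod u
  let r : P × F →ₗ[A] LinearMap.ker φ := (LinearMap.id - σ ∘ₗ φ).codRestrict _ fun z => by
    rw [LinearMap.mem_ker, LinearMap.sub_apply, map_sub, sub_eq_zero]
    exact (LinearMap.congr_fun hσ (φ z)).symm
  have hr : ∀ z : LinearMap.ker φ, r z.1 = z := fun z => Subtype.ext (by
    simp [r, LinearMap.mem_ker.mp z.2])
  have : Module.Finite A (LinearMap.ker φ) := by
    constructor
    convert hG.map r
    rw [eq_comm, eq_top_iff]
    exact fun z _ => ⟨z.1, hK z.2, hr z⟩
  have : Module.Projective A (LinearMap.ker φ) :=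
    Module.Projective.of_split (LinearMap.ker φ).subtype r (LinearMap.ext hr)
  have hr1 : ∀ x f, ((r (x, f) : LinearMap.ker φ) : P × F) = (x, f) - σ (c x + u f) :=
    fun x f => by simp [r, φ]
  have hker : ∀ z : LinearMap.ker φ, c z.1.1 + u z.1.2 = 0 := fun z => LinearMap.mem_ker.mp z.2
  refine ⟨{ K := LinearMap.ker φ
            F := F
            δ := LinearMap.snd A P F ∘ₗ (LinearMap.ker φ).subtype
            p := LinearMap.fst A P F ∘ₗ (LinearMap.ker φ).subtype
            u := u
            r1 := r ∘ₗ LinearMap.inl A P F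
            r2 := r ∘ₗ LinearMap.inr A P F
            σ1 := LinearMap.fst A P F ∘ₗ σ
            σ2 := LinearMap.snd A P F ∘ₗ σ
            comp_eq := LinearMap.ext hker
            id_P := LinearMap.ext fun x => ?_
            zero_PF := LinearMap.ext fun x => ?_
            zero_FP := LinearMap.ext fun f => ?_
            id_F := LinearMap.ext fun f => ?_
            id_M := LinearMap.ext hσ'
            id_K := LinearMap.ext fun z => ?_ }⟩
  · have := congrArg Prod.fst (hr1 x 0); simp_all
  · have := congrArg Prod.snd (hr1 x 0); simp_all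
  · have := congrArg Prod.fst (hr1 0 f); simp_all
  · have := congrArg Prod.snd (hr1 0 f); simp_all
  · change r (z.1.1, 0) + r (0, z.1.2) = z
    rw [← map_add, Prod.mk_add_mk, add_zero, zero_add]
    exact hr z

end SplitComplex

/-- Euler characteristic of a linear map of finite dimensional spaces. -/
theorem finrank_ker_sub_finrank_coker {L V W : Type u} [Field L] [AddCommGroup V] [Module L V]
    [Module.Finite L V] [AddCommGroup W] [Module L W] [Module.Finite L W] (f : V →ₗ[L] W) :
    (Module.finrank L (LinearMap.ker f) : ℤ) - Module.finrank L (W ⧸ LinearMap.range f) =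
      Module.finrank L V - Module.finrank L W := by
  have h1 := f.finrank_range_add_finrank_ker
  have h2 := (LinearMap.range f).finrank_quotient_add_finrank
  omega

variable {K F : Type u} [AddCommGroup K] [Module A K] [Module.Finite A K] [Module.Projective A K]
variable [AddCommGroup F] [Module A F] [Module.Finite A F] [Module.Free A F]

/-- A surjection of finite projective modules of the same rank is bijective. -/
theorem bijective_of_surjective_of_rankAtStalk_eq (δ : K →ₗ[A] F) (hδ : Function.Surjective δ)
    (h : ∀ q : PrimeSpectrum A, Module.rankAtStalk K q = Module.rankAtStalk F q) :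
    Function.Bijective δ := by
  obtain ⟨s, hs⟩ := Module.projective_lifting_property δ LinearMap.id hδ
  have hs' : ∀ f, δ (s f) = f := fun f => LinearMap.congr_fun hs f
  let r : K →ₗ[A] LinearMap.ker δ := (LinearMap.id - s ∘ₗ δ).codRestrict _ fun z => by simp [hs']
  have hr : ∀ z : LinearMap.ker δ, r z.1 = z := fun z => Subtype.ext (by
    simp [r, LinearMap.mem_ker.mp z.2])
  have : Module.Projective A (LinearMap.ker δ) :=
    Module.Projective.of_split (LinearMap.ker δ).subtype r (LinearMap.ext hr)
  have : Module.Finite A (LinearMap.ker δ) :=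
    Module.Finite.of_surjective r fun z => ⟨z.1, hr z⟩
  let e : K ≃ₗ[A] LinearMap.ker δ × F :=
    LinearEquiv.ofLinearMap (r.prod δ) ((LinearMap.ker δ).subtype.coprod s)
      (LinearMap.ext fun z => Prod.ext (Subtype.ext (by simp [r, hs', LinearMap.mem_ker.mp z.1.2]))
        (by simp [hs', LinearMap.mem_ker.mp z.1.2]))
      (LinearMap.ext fun z => by simp [r])
  have h0 : Module.rankAtStalk (R := A) (LinearMap.ker δ) = 0 := by
    funext q
    have := h q
    rw [Module.rankAtStalk_eq_of_equiv e, Module.rankAtStalk_prod, Pi.add_apply] at this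
    simpa using this
  have := Module.rankAtStalk_eq_zero_iff_subsingleton.mp h0
  exact ⟨LinearMap.ker_eq_bot.mp (Submodule.subsingleton_iff_eq_bot.mp this), hδ⟩

/-- The rank at the prime under a field valued point is the dimension of the fibre. -/
theorem rankAtStalk_eq_finrank_fibre (L : Type u) [Field L] [Algebra A L] :
    Module.rankAtStalk K
      (⟨RingHom.ker (algebraMap A L), RingHom.ker_isPrime _⟩ : PrimeSpectrum A) =
      Module.finrank L (L ⊗[A] K) := by
  have := Module.rankAtStalk_baseChange (R := A) (M := K) (⊥ : PrimeSpectrum L)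
  rw [Module.rankAtStalk_eq_finrank_of_free, Pi.natCast_def] at this
  exact this.symm

omit [Module.Finite A K] [Module.Projective A K] in
/-- A map surjective at a field valued point is surjective up to a function nonzero there. -/
theorem exists_smul_eq_of_surjective_fibre (L : Type u) [Field L] [Algebra A L] (δ : K →ₗ[A] F)
    (h : Function.Surjective (δ.baseChange L)) :
    ∃ a : A, algebraMap A L a ≠ 0 ∧ ∃ j : F →ₗ[A] K, δ ∘ₗ j = a • LinearMap.id := by
  classical
  let e := Module.Free.chooseBasis A F
  let eL := e.baseChange L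
  let v : K → L ⊗[A] F := fun z => 1 ⊗ₜ δ z
  have hv : Submodule.span L (Set.range v) = ⊤ := by
    rw [Submodule.eq_top_iff']
    intro y
    obtain ⟨z, rfl⟩ := h y
    induction z using TensorProduct.induction_on with
    | zero => simp
    | add _ _ h1 h2 => rw [map_add]; exact add_mem h1 h2
    | tmul l z =>
      rw [LinearMap.baseChange_tmul, ← mul_one l, ← smul_eq_mul, ← TensorProduct.smul_tmul']
      exact Submodule.smul_mem _ _ (Submodule.subset_span ⟨z, rfl⟩)
  obtain ⟨b, hb, hspan, hli⟩ := exists_linearIndependent L (Set.range v)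
  have hspan' : ⊤ ≤ Submodule.span L (Set.range ((↑) : b → L ⊗[A] F)) := by
    rw [Subtype.range_coe, hspan, hv]
  let w := Module.Basis.mk hli hspan'
  let σ := eL.indexEquiv w
  choose z hz using fun i => hb (σ i).2
  let j := e.constr ℕ z
  let g := LinearMap.toMatrix e e (δ ∘ₗ j)
  refine ⟨g.det, ?_, j ∘ₗ Matrix.toLin e e g.adjugate, ?_⟩
  · rw [LinearMap.det_toMatrix]
    have heq : (δ ∘ₗ j).baseChange L = (eL.equiv w σ).toLinearMap := eL.ext fun i => by
      rw [LinearEquiv.coe_coe, Module.Basis.equiv_apply, Module.Basis.mk_apply, ← hz i,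
        show eL i = 1 ⊗ₜ e i from e.baseChange_apply L i, LinearMap.baseChange_tmul,
        LinearMap.comp_apply, Module.Basis.constr_basis]
    have hu : IsUnit ((δ ∘ₗ j).baseChange L).det :=
      LinearMap.isUnit_det _ ((Module.End.isUnit_iff _).mpr (heq ▸ (eL.equiv w σ).bijective))
    rw [LinearMap.det_baseChange] at hu
    exact hu.ne_zero
  · rw [← LinearMap.comp_assoc, ← Matrix.toLin_toMatrix e e (δ ∘ₗ j), ← Matrix.toLin_mul,
      Matrix.mul_adjugate, map_smul, Matrix.toLin_one]

/-- A map bijective at a field valued point is bijective on a neighbourhood. -/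
theorem exists_bijective_away (L : Type u) [Field L] [Algebra A L] (δ : K →ₗ[A] F)
    (h : Function.Bijective (δ.baseChange L)) :
    ∃ f : A, algebraMap A L f ≠ 0 ∧
      Function.Bijective (δ.baseChange (Localization.Away f)) := by
  obtain ⟨a, ha, j, hj⟩ := exists_smul_eq_of_surjective_fibre L δ h.2
  have hrank : Module.rankAtStalk K
      (⟨RingHom.ker (algebraMap A L), RingHom.ker_isPrime _⟩ : PrimeSpectrum A) =
      Module.finrank L (L ⊗[A] F) := by
    rw [rankAtStalk_eq_finrank_fibre, (LinearEquiv.ofBijective _ h).finrank_eq]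
  obtain ⟨_, ⟨g, rfl⟩, hpg, hg⟩ :=
    PrimeSpectrum.isTopologicalBasis_basic_opens.exists_subset_of_mem_open
      (show (⟨RingHom.ker (algebraMap A L), RingHom.ker_isPrime _⟩ : PrimeSpectrum A) ∈
        {q : PrimeSpectrum A | Module.rankAtStalk K q = Module.finrank L (L ⊗[A] F)} from hrank)
      ((@Module.isLocallyConstant_rankAtStalk A K _ _ _
        (Module.finitePresentation_of_projective A K)
        inferInstance).isOpen_fiber _)
  refine ⟨a * g, ?_, ?_⟩
  · rw [map_mul]
    exact mul_ne_zero ha hpg
  let B := Localization.Away (a * g)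
  have hag : IsUnit (algebraMap A B a * algebraMap A B g) := by
    rw [← map_mul]; exact IsLocalization.Away.algebraMap_isUnit (a * g)
  refine bijective_of_surjective_of_rankAtStalk_eq _ (fun y => ?_) fun q => ?_
  · obtain ⟨a', ha'⟩ := (isUnit_of_mul_isUnit_left hag).exists_left_inv
    refine ⟨a' • j.baseChange B y, ?_⟩
    rw [map_smul, ← LinearMap.comp_apply, ← LinearMap.baseChange_comp, hj,
      LinearMap.baseChange_smul, LinearMap.baseChange_id, LinearMap.smul_apply,
      LinearMap.id_apply, ← IsScalarTower.algebraMap_smul B a y, smul_smul, ha', one_smul]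
  · rw [Module.rankAtStalk_baseChange]
    have hq : PrimeSpectrum.comap (algebraMap A B) q ∈ (PrimeSpectrum.basicOpen g : Set _) :=
      fun hmem => q.isPrime.ne_top
        (Ideal.eq_top_of_isUnit_mem _ hmem (isUnit_of_mul_isUnit_right hag))
    have : Nontrivial B := q.nontrivial
    have : Nontrivial A := (algebraMap A B).domain_nontrivial
    rw [hg hq, Module.rankAtStalk_eq_finrank_of_free, Module.finrank_baseChange,
      Module.finrank_baseChange]
    rfl

omit [Module.Finite A K] [Module.Projective A K] in
/-- Every prime is the kernel of a geometric point. -/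
theorem exists_geometricPoint (q : PrimeSpectrum A) :
    ∃ (L : Type u) (_ : Field L) (_ : IsAlgClosed L) (χ : A →+* L), RingHom.ker χ = q.asIdeal := by
  refine ⟨AlgebraicClosure (FractionRing (A ⧸ q.asIdeal)), inferInstance, inferInstance,
    ((algebraMap (FractionRing (A ⧸ q.asIdeal)) _).comp (algebraMap (A ⧸ q.asIdeal) _)).comp
      (Ideal.Quotient.mk q.asIdeal), ?_⟩
  rw [← RingHom.comap_ker, (RingHom.injective_iff_ker_eq_bot _).mp]
  · exact Ideal.mk_ker
  · exact (RingHom.injective (algebraMap (FractionRing (A ⧸ q.asIdeal))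
      (AlgebraicClosure (FractionRing (A ⧸ q.asIdeal))))).comp
      (IsFractionRing.injective (A ⧸ q.asIdeal) (FractionRing (A ⧸ q.asIdeal)))

/-- Bijectivity is tested on geometric fibres. -/
theorem bijective_of_geometricFibres (δ : K →ₗ[A] F)
    (h : ∀ (L : Type u) [Field L] [IsAlgClosed L] [Algebra A L],
      Function.Bijective (δ.baseChange L)) : Function.Bijective δ := by
  let I : Ideal A :=
    { carrier := {a | ∀ y : F, a • y ∈ LinearMap.range δ}
      add_mem' := fun {a b} ha hb y => by rw [add_smul]; exact add_mem (ha y) (hb y)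
      zero_mem' := fun y => by simp
      smul_mem' := fun b a ha y => by rw [smul_assoc]; exact Submodule.smul_mem _ _ (ha y) }
  have hI : I = ⊤ := by
    by_contra hne
    obtain ⟨q, hq, hIq⟩ := Ideal.exists_le_maximal I hne
    obtain ⟨L, _, _, χ, hχ⟩ := exists_geometricPoint (⟨q, hq.isPrime⟩ : PrimeSpectrum A)
    let := χ.toAlgebra
    obtain ⟨a, ha, j, hj⟩ := exists_smul_eq_of_surjective_fibre L δ (h L).2
    refine ha (RingHom.mem_ker.mp (hχ.symm ▸ hIq (?_ : a ∈ I)))
    exact fun y => ⟨j y, by simpa using LinearMap.congr_fun hj y⟩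
  refine bijective_of_surjective_of_rankAtStalk_eq δ (fun y => ?_) fun q => ?_
  · have : (1 : A) ∈ I := hI ▸ Submodule.mem_top
    simpa using this y
  · obtain ⟨L, _, _, χ, hχ⟩ := exists_geometricPoint q
    let := χ.toAlgebra
    have hq : (⟨RingHom.ker (algebraMap A L), RingHom.ker_isPrime _⟩ : PrimeSpectrum A) = q :=
      PrimeSpectrum.ext hχ
    rw [← hq, rankAtStalk_eq_finrank_fibre, rankAtStalk_eq_finrank_fibre,
      (LinearEquiv.ofBijective _ (h L)).finrank_eq]

end Fermat.Agent.Jac
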