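import Fermat.Agent.Jac.Cl
import Fermat.Agent.Jac.Cohomology.Bound
import Fermat.Agent.Jac.Cohomology.Invertible
import Fermat.Agent.Jac.Cohomology.Split

/-!
# The perfect complex of line data

The Cech differential of line data over any test algebra is homotopic to a map of finitely
generated projective modules, compatibly with base change.
-/

set_option autoImplicit false

universe u

open scoped TensorProduct

namespace Fermat.Agent.Jac

/-- Sections with bounded pole order along one side form a finitely generated module. -/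
theorem exists_fg_bounded_aux {A R R' S : Type u} [CommRing A] [CommRing R] [CommRing R']
    [CommRing S] [Algebra A R] {σ : R →+* S} {σ' : R' →+* S} {θ θ' : S} (hθ : θ * θ' = 1)
    (hW : ∀ N : ℕ, ∃ W : Submodule A R, W.FG ∧ ∀ r r', σ r = θ ^ N * σ' r' → r ∈ W)
    (q : R') (hq : σ' q = θ') (hsurj : ∀ z : S, ∃ (n : ℕ) (r' : R'), σ' r' = θ' ^ n * z)
    {M M' Q : Type u} [AddCommGroup M] [Module R M] [Module A M] [IsScalarTower A R M]
    [Module.Invertible R M] [AddCommGroup M'] [Module R' M'] [Module.Finite R' M']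
    [AddCommGroup Q] [Module S Q] [Module.Invertible S Q]
    (f : M →ₛₗ[σ] Q) (hf : Submodule.span S (Set.range f) = ⊤) (f' : M' →ₛₗ[σ'] Q) (N : ℕ) :
    ∃ G : Submodule A M, G.FG ∧ ∀ x x', f x = θ ^ N • f' x' → x ∈ G := by
  classical
  obtain ⟨n, b, g, hg⟩ := exists_dualBasis (R := R) (M := M)
  let h : Fin n → M →ₛₗ[σ] S := fun i =>
    ⟨(σ.toAddMonoidHom.comp (g i).toAddMonoidHom).toAddHom, fun r y => by simp⟩
  choose G hG using fun i => exists_extend_semilinear f hf (h i)
  obtain ⟨s, hs⟩ := Module.Finite.fg_top (R := R') (M := M')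
  choose e r he using fun (p : Fin n × M') => hsurj (G p.1 (f' p.2))
  let L : ℕ := Finset.univ.sup fun i => s.sup fun v => e (i, v)
  have hL : ∀ i x', ∃ r', σ' r' = θ' ^ L * G i (f' x') := by
    intro i x'
    have hx' : x' ∈ Submodule.span R' (s : Set M') := hs ▸ Submodule.mem_top
    induction hx' using Submodule.span_induction with
    | mem v hv =>
      have hle : e (i, v) ≤ L :=
        le_trans (Finset.le_sup (f := fun v => e (i, v)) hv)
          (Finset.le_sup (f := fun i => s.sup fun v => e (i, v)) (Finset.mem_univ i))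
      obtain ⟨d, hd⟩ := Nat.exists_eq_add_of_le hle
      exact ⟨q ^ d * r (i, v), by rw [map_mul, map_pow, hq, he, hd, pow_add]; ring⟩
    | zero => exact ⟨0, by simp⟩
    | add v w _ _ hv hw =>
      obtain ⟨a, ha⟩ := hv
      obtain ⟨c, hc⟩ := hw
      exact ⟨a + c, by rw [map_add, map_add, map_add, mul_add, ha, hc]⟩
    | smul a v _ hv =>
      obtain ⟨c, hc⟩ := hv
      exact ⟨a * c, by rw [map_mul, f'.map_smulₛₗ, map_smul, smul_eq_mul, hc]; ring⟩
  obtain ⟨W, hWfg, hWmem⟩ := hW (N + L)
  refine ⟨⨆ i, W.map ((LinearMap.toSpanSingleton R M (b i)).restrictScalars A),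
    Submodule.fg_iSup _ fun i => hWfg.map _, fun x x' hx => ?_⟩
  rw [hg x]
  refine Submodule.sum_mem _ fun i _ => Submodule.mem_iSup_of_mem i ⟨g i x, ?_, rfl⟩
  obtain ⟨r', hr'⟩ := hL i x'
  refine hWmem _ r' ?_
  calc σ (g i x) = G i (f x) := (hG i x).symm
    _ = θ ^ N * G i (f' x') := by rw [hx, map_smul, smul_eq_mul]
    _ = θ ^ N * ((θ * θ') ^ L * G i (f' x')) := by rw [hθ, one_pow, one_mul]
    _ = θ ^ (N + L) * σ' r' := by rw [hr']; ring

namespace LineData

variable {k : Type u} [Field k] {m : CurveModel k} {A : Type u} [CommRing A] [Algebra k A]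
variable (D : LineData m A)

theorem res0_smul_base (a : A) (x : D.M0) : D.res0 (a • x) = a • D.res0 x := by
  have h := D.cech_smul a (x, 0)
  simpa [cech] using h

theorem res1_smul_base (a : A) (x : D.M1) : D.res1 (a • x) = a • D.res1 x := by
  have h := D.cech_smul a (0, x)
  simpa [cech] using h

theorem cechLin_eq_sub (x : D.M0 × D.M1) : D.cechLin x = D.res0 x.1 - D.res1 x.2 := rfl

theorem res0_tPow (j : ℕ) (x : D.M0) : D.res0 (m.tA A ^ j • x) = m.θ0 A ^ j • D.res0 x := by
  rw [LinearMap.map_smulₛₗ, map_pow]; rfl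

theorem res1_sPow (j : ℕ) (x : D.M1) : D.res1 (m.sA A ^ j • x) = m.θ1 A ^ j • D.res1 x := by
  rw [LinearMap.map_smulₛₗ, map_pow]; rfl

theorem θ0_pow_smul_θ1_pow_smul (n : ℕ) (z : D.M01) : m.θ0 A ^ n • m.θ1 A ^ n • z = z := by
  rw [smul_smul, m.θ0_pow_mul_θ1_pow, one_smul]

theorem θ1_pow_smul_θ0_pow_smul (n : ℕ) (z : D.M01) : m.θ1 A ^ n • m.θ0 A ^ n • z = z := by
  rw [smul_smul, m.θ1_pow_mul_θ0_pow, one_smul]

theorem exists_res0_eq (z : D.M01) : ∃ (n : ℕ) (x : D.M0), D.res0 x = m.θ0 A ^ n • z := by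
  have hz : z ∈ Submodule.span (m.R01 A) (Set.range D.res0) := D.span0 ▸ Submodule.mem_top
  induction hz using Submodule.span_induction with
  | mem _ h => obtain ⟨x, rfl⟩ := h; exact ⟨0, x, by simp⟩
  | zero => exact ⟨0, 0, by simp⟩
  | add z z' _ _ h h' =>
    obtain ⟨n, x, hx⟩ := h
    obtain ⟨n', x', hx'⟩ := h'
    refine ⟨n + n', m.tA A ^ n' • x + m.tA A ^ n • x', ?_⟩
    rw [map_add, res0_tPow, res0_tPow, hx, hx', smul_smul, smul_smul, ← pow_add, ← pow_add,
      add_comm n' n, smul_add]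
  | smul r z _ h =>
    obtain ⟨n, x, hx⟩ := h
    obtain ⟨n', y, hy⟩ := m.exists_ι0_eq A r
    refine ⟨n' + n, y • x, ?_⟩
    rw [LinearMap.map_smulₛₗ, hy, hx, smul_smul, smul_smul]
    congr 1
    ring

theorem exists_res1_eq (z : D.M01) : ∃ (n : ℕ) (x : D.M1), D.res1 x = m.θ1 A ^ n • z := by
  have hz : z ∈ Submodule.span (m.R01 A) (Set.range D.res1) := D.span1 ▸ Submodule.mem_top
  induction hz using Submodule.span_induction with
  | mem _ h => obtain ⟨x, rfl⟩ := h; exact ⟨0, x, by simp⟩
  | zero => exact ⟨0, 0, by simp⟩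
  | add z z' _ _ h h' =>
    obtain ⟨n, x, hx⟩ := h
    obtain ⟨n', x', hx'⟩ := h'
    refine ⟨n + n', m.sA A ^ n' • x + m.sA A ^ n • x', ?_⟩
    rw [map_add, res1_sPow, res1_sPow, hx, hx', smul_smul, smul_smul, ← pow_add, ← pow_add,
      add_comm n' n, smul_add]
  | smul r z _ h =>
    obtain ⟨n, x, hx⟩ := h
    obtain ⟨n', y, hy⟩ := m.exists_ι1_eq A r
    refine ⟨n' + n, y • x, ?_⟩
    rw [LinearMap.map_smulₛₗ, hy, hx, smul_smul, smul_smul]
    congr 1
    ring

/-- Finitely many sections over the overlap have a common bound on poles on the second chart. -/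
theorem exists_bound1 {ι : Type*} [Finite ι] (z : ι → D.M01) :
    ∃ L : ℕ, ∀ i, ∃ w : D.M1, D.res1 w = m.θ1 A ^ L • z i := by
  cases nonempty_fintype ι
  choose e w hw using fun i => D.exists_res1_eq (z i)
  refine ⟨Finset.univ.sup e, fun i => ?_⟩
  obtain ⟨d, hd⟩ := Nat.exists_eq_add_of_le (Finset.le_sup (f := e) (Finset.mem_univ i))
  exact ⟨m.sA A ^ d • w i, by rw [res1_sPow, hw, smul_smul, ← pow_add, hd, add_comm]⟩

/-- Finitely many sections over the overlap have a common bound on poles on the first chart. -/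
theorem exists_bound0 {ι : Type*} [Finite ι] (z : ι → D.M01) :
    ∃ L : ℕ, ∀ i, ∃ w : D.M0, D.res0 w = m.θ0 A ^ L • z i := by
  cases nonempty_fintype ι
  choose e w hw using fun i => D.exists_res0_eq (z i)
  refine ⟨Finset.univ.sup e, fun i => ?_⟩
  obtain ⟨d, hd⟩ := Nat.exists_eq_add_of_le (Finset.le_sup (f := e) (Finset.mem_univ i))
  exact ⟨m.tA A ^ d • w i, by rw [res0_tPow, hw, smul_smul, ← pow_add, hd, add_comm]⟩

theorem exists_fg_bounded0 (N : ℕ) : ∃ G : Submodule A D.M0, G.FG ∧
    ∀ x y, D.res0 x = m.θ0 A ^ N • D.res1 y → x ∈ G :=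
  exists_fg_bounded_aux (m.θ0_mul_θ1 A) (m.exists_fg_bounded0 A) (m.sA A) rfl
    (m.exists_ι1_eq A) D.res0 D.span0
    D.res1 N

theorem exists_fg_bounded1 (N : ℕ) : ∃ G : Submodule A D.M1, G.FG ∧
    ∀ y x, D.res1 y = m.θ1 A ^ N • D.res0 x → y ∈ G :=
  exists_fg_bounded_aux (m.θ1_mul_θ0 A) (m.exists_fg_bounded1 A) (m.tA A) rfl
    (m.exists_ι0_eq A) D.res1 D.span1
    D.res0 N

end LineData

/-- A finite projective module over an algebra that is free over the base. -/
theorem projective_trans (A R M : Type u) [CommRing A] [CommRing R] [Algebra A R]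
    [Module.Free A R] [AddCommGroup M] [Module R M] [Module A M] [IsScalarTower A R M]
    [Module.Finite R M] [Module.Projective R M] : Module.Projective A M := by
  obtain ⟨n, π, σ, -, -, h⟩ := Module.Finite.exists_comp_eq_id_of_projective R M
  have : Module.Free A (Fin n → R) := Module.Free.function (Fin n) A R
  exact Module.Projective.of_split (σ.restrictScalars A) (π.restrictScalars A)
    (LinearMap.ext fun x => LinearMap.congr_fun h x)

namespace LineData

variable {k : Type u} [Field k] {m : CurveModel k} {A : Type u} [CommRing A] [Algebra k A]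
variable (D : LineData m A)

/-- The Cech differential is split homotopic to a map of finite projective modules. -/
theorem nonempty_splitComplex : Nonempty (SplitComplex D.cechLin) := by
  classical
  have : Module.Projective A D.M0 := projective_trans A (m.R0 A) D.M0
  have : Module.Projective A D.M1 := projective_trans A (m.R1 A) D.M1
  have : Module.Projective A D.M01 := projective_trans A (m.R01 A) D.M01
  obtain ⟨n, b, g, hg⟩ := exists_dualBasis (R := m.R0 A) (M := D.M0)
  obtain ⟨G, hG⟩ := exists_span_pow m.t m.finite0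
  let v : Fin n × G → D.M0 := fun p => ((1 : A) ⊗ₜ[k] (p.2 : m.B0)) • b p.1
  obtain ⟨c, hc⟩ := D.exists_bound1 fun p => D.res0 (v p)
  choose w hw using hc
  let U : (Fin n × G) × Fin c → D.M01 := fun q => m.θ1 A ^ (q.2 : ℕ) • D.res0 (v q.1)
  let u := Fintype.linearCombination A U
  let T : Submodule A D.M01 := LinearMap.range D.cechLin ⊔ LinearMap.range u
  have hT0 : ∀ x, D.res0 x ∈ T := fun x =>
    Submodule.mem_sup_left ⟨(x, 0), by simp [cechLin_eq_sub]⟩
  have hT1 : ∀ y, D.res1 y ∈ T := fun y =>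
    Submodule.mem_sup_left ⟨(0, -y), by simp [cechLin_eq_sub]⟩
  have hgen : ∀ (j : ℕ) (p : Fin n × G) (i : ℕ),
      m.θ1 A ^ i • D.res0 (m.tA A ^ j • v p) ∈ T := by
    intro j p i
    rw [res0_tPow]
    rcases Nat.lt_or_ge j i with hji | hji
    · obtain ⟨e, rfl⟩ := Nat.exists_eq_add_of_le hji.le
      rw [add_comm j e, pow_add, mul_smul, D.θ1_pow_smul_θ0_pow_smul]
      rcases Nat.lt_or_ge e c with hec | hec
      · exact Submodule.mem_sup_right
          ⟨Pi.single (p, ⟨e, hec⟩) 1, by simp [u, Fintype.linearCombination_apply_single, U]⟩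
      · obtain ⟨d, rfl⟩ := Nat.exists_eq_add_of_le hec
        rw [add_comm c d, pow_add, mul_smul, ← hw p, ← res1_sPow]
        exact hT1 _
    · obtain ⟨d, rfl⟩ := Nat.exists_eq_add_of_le hji
      rw [pow_add, mul_smul, D.θ1_pow_smul_θ0_pow_smul, ← res0_tPow]
      exact hT0 _
  let P : Submodule A D.M0 :=
    { carrier := {x | ∀ i : ℕ, m.θ1 A ^ i • D.res0 x ∈ T}
      add_mem' := fun {x y} hx hy i => by rw [map_add, smul_add]; exact add_mem (hx i) (hy i)
      zero_mem' := fun i => by simp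
      smul_mem' := fun a x hx i => by
        rw [res0_smul_base, smul_comm]; exact Submodule.smul_mem _ a (hx i) }
  have hbasis : ∀ (r : m.R0 A) (i : Fin n), r • b i ∈ P := by
    intro r i
    induction r using TensorProduct.induction_on with
    | zero => rw [zero_smul]; exact zero_mem _
    | add r r' h h' => rw [add_smul]; exact add_mem h h'
    | tmul a z =>
      have hz : z ∈ Submodule.span k {y : m.B0 | ∃ g ∈ G, ∃ j : ℕ, y = m.t ^ j * g} :=
        hG ▸ Submodule.mem_top
      induction hz using Submodule.span_induction generalizing a with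
      | mem z hz =>
        obtain ⟨z, hzG, j, rfl⟩ := hz
        have : (a ⊗ₜ[k] (m.t ^ j * z)) • b i = a • m.tA A ^ j • v (i, ⟨z, hzG⟩) := by
          rw [← IsScalarTower.algebraMap_smul (m.R0 A) a, smul_smul, smul_smul]
          congr 1
          simp [CurveModel.tA]
        rw [this]
        exact Submodule.smul_mem _ a fun i' => hgen j _ i'
      | zero => simp
      | add y y' _ _ h h' => rw [TensorProduct.tmul_add, add_smul]; exact add_mem (h a) (h' a)
      | smul c y _ h => rw [← TensorProduct.smul_tmul]; exact h (c • a)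
  have hφ : Function.Surjective (D.cechLin.coprod u) := by
    rw [← LinearMap.range_eq_top, LinearMap.range_coprod, eq_top_iff]
    intro z _
    obtain ⟨l, x, hx⟩ := D.exists_res0_eq z
    have hxP : x ∈ P := by
      rw [hg x]
      exact Submodule.sum_mem _ fun i _ => hbasis _ i
    have := hxP l
    rwa [hx, D.θ1_pow_smul_θ0_pow_smul] at this
  obtain ⟨L, hL⟩ := D.exists_bound1 U
  obtain ⟨L', hL'⟩ := D.exists_bound0 U
  choose w1 hw1 using hL
  choose w0 hw0 using hL'
  obtain ⟨G0, hG0, hG0'⟩ := D.exists_fg_bounded0 L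
  obtain ⟨G1, hG1, hG1'⟩ := D.exists_fg_bounded1 L'
  refine SplitComplex.nonempty_of_coprod D.cechLin u hφ ((G0.prod G1).prod ⊤)
    ((hG0.prod hG1).prod Module.Finite.fg_top) ?_
  rintro ⟨⟨x, y⟩, f⟩ hxyf
  have heq : D.res0 x - D.res1 y + u f = 0 := LinearMap.mem_ker.mp hxyf
  have hu1 : m.θ1 A ^ L • u f = D.res1 (∑ q, f q • w1 q) := by
    simp only [u, Fintype.linearCombination_apply, Finset.smul_sum, map_sum, res1_smul_base, hw1]
    exact Finset.sum_congr rfl fun q _ => smul_comm _ _ _
  have hu0 : m.θ0 A ^ L' • u f = D.res0 (∑ q, f q • w0 q) := by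
    simp only [u, Fintype.linearCombination_apply, Finset.smul_sum, map_sum, res0_smul_base, hw0]
    exact Finset.sum_congr rfl fun q _ => smul_comm _ _ _
  refine ⟨⟨hG0' x (m.sA A ^ L • y - ∑ q, f q • w1 q) ?_,
    hG1' y (m.tA A ^ L' • x + ∑ q, f q • w0 q) ?_⟩, trivial⟩
  · rw [map_sub, res1_sPow, ← hu1, smul_sub, D.θ0_pow_smul_θ1_pow_smul,
      D.θ0_pow_smul_θ1_pow_smul, eq_sub_iff_add_eq, ← sub_eq_zero, ← heq]
    abel
  · rw [map_add, res0_tPow, ← hu0, smul_add, D.θ1_pow_smul_θ0_pow_smul,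
      D.θ1_pow_smul_θ0_pow_smul]
    exact (sub_eq_zero.mp (by rw [← heq]; abel)).symm

variable {D}

/-- Base change of line data is extension of scalars of the Cech complex. -/
theorem exists_cechLin_baseChange {A' : Type u} [CommRing A'] [Algebra k A'] [Algebra A A']
    [IsScalarTower k A A'] {E : LineData m A'}
    (h : D.IsBaseChangeData (IsScalarTower.toAlgHom k A A') E) :
    ∃ (eP : A' ⊗[A] (D.M0 × D.M1) ≃ₗ[A'] E.M0 × E.M1) (eM : A' ⊗[A] D.M01 ≃ₗ[A'] E.M01),
      ∀ x, E.cechLin (eP x) = eM (D.cechLin.baseChange A' x) := by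
  obtain ⟨f0, f1, f01, h0, h1, s0, s1⟩ := h
  have s01 : Submodule.span (m.R01 A') (Set.range f01) = ⊤ := by
    rw [eq_top_iff, ← E.span0, Submodule.span_le]
    rintro _ ⟨x, rfl⟩
    have hx : x ∈ Submodule.span (m.R0 A') (Set.range f0) := s0 ▸ Submodule.mem_top
    induction hx using Submodule.span_induction with
    | mem _ hx => obtain ⟨y, rfl⟩ := hx; rw [h0]; exact Submodule.subset_span ⟨_, rfl⟩
    | zero => rw [map_zero]; exact zero_mem _
    | add _ _ _ _ a b => rw [map_add]; exact add_mem a b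
    | smul r _ _ a => rw [LinearMap.map_smulₛₗ]; exact Submodule.smul_mem _ _ a
  let : Module A E.M0 := Module.compHom E.M0 (algebraMap A A')
  let : Module A E.M1 := Module.compHom E.M1 (algebraMap A A')
  let : Module A E.M01 := Module.compHom E.M01 (algebraMap A A')
  have : IsScalarTower A A' E.M0 := IsScalarTower.of_algebraMap_smul fun _ _ => rfl
  have : IsScalarTower A A' E.M1 := IsScalarTower.of_algebraMap_smul fun _ _ => rfl
  have : IsScalarTower A A' E.M01 := IsScalarTower.of_algebraMap_smul fun _ _ => rfl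
  obtain ⟨g0, hg0, b0⟩ := isBaseChange_of_span_eq_top (k := k) (A := A) (B := A') (V := m.B0)
    (fun _ _ => rfl) f0 s0
  obtain ⟨g1, hg1, b1⟩ := isBaseChange_of_span_eq_top (k := k) (A := A) (B := A') (V := m.B1)
    (fun _ _ => rfl) f1 s1
  obtain ⟨g01, hg01, b01⟩ := isBaseChange_of_span_eq_top (k := k) (A := A) (B := A') (V := m.B01)
    (fun _ _ => rfl) f01 s01
  refine ⟨TensorProduct.prodRight A A' A' D.M0 D.M1 ≪≫ₗ b0.equiv.prodCongr b1.equiv,
    b01.equiv, fun x => ?_⟩
  induction x using TensorProduct.induction_on with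
  | zero => rw [map_zero, map_zero, map_zero, map_zero]
  | add _ _ a b => simp only [map_add, a, b]
  | tmul a y =>
    simp [IsBaseChange.equiv_tmul, cechLin_eq_sub, hg0, hg1, hg01, ← h0, ← h1, smul_sub,
      res0_smul_base, res1_smul_base]

end LineData

end Fermat.Agent.Jac
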